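import Mathlib

/-!
# S14, block U : the ring `F[x]/(x^3)` and the second logarithmic functional

`T3 F` is the ring of truncated polynomials `a + b x + c x ^ 2`.  The functional
`l2 s = (2 a c - b ^ 2 + a b) / a ^ 2` is additive on elements with `a ≠ 0`.
-/

set_option autoImplicit false

namespace Fermat.Agent.S14.Units

/-- Truncated polynomials `a + b x + c x ^ 2`. -/
@[ext] structure T3 (F : Type*) where
  /-- constant coefficient -/
  a : F
  /-- linear coefficient -/
  b : F
  /-- quadratic coefficient -/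
  c : F

namespace T3

variable {F : Type*}

section Ring

variable [CommRing F]

instance : Zero (T3 F) := ⟨⟨0, 0, 0⟩⟩
instance : One (T3 F) := ⟨⟨1, 0, 0⟩⟩
instance : Add (T3 F) := ⟨fun s t => ⟨s.a + t.a, s.b + t.b, s.c + t.c⟩⟩
instance : Neg (T3 F) := ⟨fun s => ⟨-s.a, -s.b, -s.c⟩⟩
instance : Mul (T3 F) :=
  ⟨fun s t => ⟨s.a * t.a, s.a * t.b + s.b * t.a, s.a * t.c + s.b * t.b + s.c * t.a⟩⟩

@[simp] lemma zero_a : (0 : T3 F).a = 0 := rfl
@[simp] lemma zero_b : (0 : T3 F).b = 0 := rfl
@[simp] lemma zero_c : (0 : T3 F).c = 0 := rfl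
@[simp] lemma one_a : (1 : T3 F).a = 1 := rfl
@[simp] lemma one_b : (1 : T3 F).b = 0 := rfl
@[simp] lemma one_c : (1 : T3 F).c = 0 := rfl
@[simp] lemma add_a (s t : T3 F) : (s + t).a = s.a + t.a := rfl
@[simp] lemma add_b (s t : T3 F) : (s + t).b = s.b + t.b := rfl
@[simp] lemma add_c (s t : T3 F) : (s + t).c = s.c + t.c := rfl
@[simp] lemma neg_a (s : T3 F) : (-s).a = -s.a := rfl
@[simp] lemma neg_b (s : T3 F) : (-s).b = -s.b := rfl
@[simp] lemma neg_c (s : T3 F) : (-s).c = -s.c := rfl
@[simp] lemma mul_a (s t : T3 F) : (s * t).a = s.a * t.a := rfl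
@[simp] lemma mul_b (s t : T3 F) : (s * t).b = s.a * t.b + s.b * t.a := rfl
@[simp] lemma mul_c (s t : T3 F) : (s * t).c = s.a * t.c + s.b * t.b + s.c * t.a := rfl

instance : CommRing (T3 F) where
  add_assoc s t u := by ext <;> simp [add_assoc]
  zero_add s := by ext <;> simp
  add_zero s := by ext <;> simp
  add_comm s t := by ext <;> simp [add_comm]
  nsmul := nsmulRec
  zsmul := zsmulRec
  neg_add_cancel s := by ext <;> simp
  mul_assoc s t u := by ext <;> simp <;> ring
  one_mul s := by ext <;> simp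
  mul_one s := by ext <;> simp
  left_distrib s t u := by ext <;> simp <;> ring
  right_distrib s t u := by ext <;> simp <;> ring
  zero_mul s := by ext <;> simp
  mul_zero s := by ext <;> simp
  mul_comm s t := by ext <;> simp <;> ring

@[simp] lemma sub_a (s t : T3 F) : (s - t).a = s.a - t.a := by
  rw [sub_eq_add_neg, add_a, neg_a, sub_eq_add_neg]
@[simp] lemma sub_b (s t : T3 F) : (s - t).b = s.b - t.b := by
  rw [sub_eq_add_neg, add_b, neg_b, sub_eq_add_neg]
@[simp] lemma sub_c (s t : T3 F) : (s - t).c = s.c - t.c := by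
  rw [sub_eq_add_neg, add_c, neg_c, sub_eq_add_neg]

/-- The variable `x`. -/
def X : T3 F := ⟨0, 1, 0⟩

@[simp] lemma X_a : (X : T3 F).a = 0 := rfl
@[simp] lemma X_b : (X : T3 F).b = 1 := rfl
@[simp] lemma X_c : (X : T3 F).c = 0 := rfl

lemma X_pow_three : (X : T3 F) ^ 3 = 0 := by
  ext <;> simp [pow_succ]

/-- The constant coefficient as a ring homomorphism. -/
def aHom : T3 F →+* F where
  toFun s := s.a
  map_one' := rfl
  map_mul' _ _ := rfl
  map_zero' := rfl
  map_add' _ _ := rfl

@[simp] lemma aHom_apply (s : T3 F) : aHom s = s.a := rfl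

lemma pow_a (s : T3 F) (k : ℕ) : (s ^ k).a = s.a ^ k := map_pow aHom s k

lemma prod_a {ι : Type*} (S : Finset ι) (f : ι → T3 F) : (∏ i ∈ S, f i).a = ∏ i ∈ S, (f i).a :=
  map_prod aHom f S

lemma one_add_X_pow (m : ℕ) : (1 + X : T3 F) ^ m = ⟨1, m, (m.choose 2 : ℕ)⟩ := by
  induction m with
  | zero => ext <;> simp
  | succ m ih =>
    rw [pow_succ, ih]
    ext
    · simp
    · simp [add_comm]
    · simp [Nat.choose_succ_succ' m 1, add_comm]

lemma sum_one_add_X_pow (n : ℕ) :
    ∑ j ∈ Finset.range n, (1 + X : T3 F) ^ j = ⟨n, (n.choose 2 : ℕ), (n.choose 3 : ℕ)⟩ := by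
  induction n with
  | zero => ext <;> simp
  | succ n ih =>
    rw [Finset.sum_range_succ, ih, one_add_X_pow]
    ext
    · simp
    · simp [Nat.choose_succ_succ' n 1, add_comm]
    · simp [Nat.choose_succ_succ' n 2, add_comm]

lemma two_mul_choose_two (n : ℕ) : (2 : F) * (n.choose 2 : ℕ) = n * (n - 1) := by
  induction n with
  | zero => simp
  | succ n ih =>
    rw [Nat.choose_succ_succ' n 1, Nat.choose_one_right]
    push_cast
    linear_combination ih

lemma six_mul_choose_three (n : ℕ) : (6 : F) * (n.choose 3 : ℕ) = n * (n - 1) * (n - 2) := by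
  induction n with
  | zero => simp
  | succ n ih =>
    rw [Nat.choose_succ_succ' n 2]
    push_cast
    linear_combination ih + 3 * two_mul_choose_two (F := F) n

end Ring

section Field

variable [Field F]

/-- The second logarithmic functional (normalised so that it kills `1 + x`). -/
def l2 (s : T3 F) : F := (2 * s.a * s.c - s.b ^ 2 + s.a * s.b) / s.a ^ 2

lemma l2_one : l2 (1 : T3 F) = 0 := by simp [l2]

lemma l2_mul {s t : T3 F} (hs : s.a ≠ 0) (ht : t.a ≠ 0) : l2 (s * t) = l2 s + l2 t := by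
  simp only [l2, mul_a, mul_b, mul_c]
  field_simp
  ring

lemma l2_pow {s : T3 F} (hs : s.a ≠ 0) (k : ℕ) : l2 (s ^ k) = k * l2 s := by
  induction k with
  | zero => simp [l2_one]
  | succ k ih =>
    rw [pow_succ, l2_mul (by rw [pow_a]; exact pow_ne_zero _ hs) hs, ih]
    push_cast
    ring

lemma l2_prod {ι : Type*} (S : Finset ι) (f : ι → T3 F) (hf : ∀ i ∈ S, (f i).a ≠ 0) :
    l2 (∏ i ∈ S, f i) = ∑ i ∈ S, l2 (f i) := by
  classical
  induction S using Finset.induction_on with
  | empty => simp [l2_one]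
  | insert i S hi ih =>
    rw [Finset.prod_insert hi, Finset.sum_insert hi, l2_mul (hf i (Finset.mem_insert_self _ _)),
      ih fun j hj => hf j (Finset.mem_insert_of_mem hj)]
    rw [prod_a]
    exact Finset.prod_ne_zero_iff.2 fun j hj => hf j (Finset.mem_insert_of_mem hj)

/-- The value of `l2` on `1 + t + ... + t ^ (n - 1)`, `t = 1 + x`. -/
lemma l2_sum_one_add_X_pow (n : ℕ) (hn : (n : F) ≠ 0) :
    12 * l2 (∑ j ∈ Finset.range n, (1 + X : T3 F) ^ j) = (n : F) ^ 2 - 1 := by
  rw [sum_one_add_X_pow]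
  simp only [l2]
  have h2 := two_mul_choose_two (F := F) n
  have h3 := six_mul_choose_three (F := F) n
  field_simp
  linear_combination 4 * (n : F) * h3 +
    (6 * (n : F) - 3 * (2 * ((n.choose 2 : ℕ) : F) + n * (n - 1))) * h2

end Field

end T3

end Fermat.Agent.S14.Units
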