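import Fermat.Agent.S14.Defs
import Fermat.Agent.S14.Units.T3

/-!
# S14, block U : the cyclotomic unit `eta`

`eta_isUnit`, `eta_local` and `eta_eigen` of the blueprint.
-/

set_option autoImplicit false
set_option linter.unusedSectionVars false

namespace Fermat.Agent.S14.Units

open NumberField Polynomial Finset

section Reindex

variable {p : ℕ} [Fact p.Prime]

/-- Products over `1 ≤ a < p` are products over the units of `ZMod p`. -/
lemma prod_Ico_eq_prod_units {N : Type*} [CommMonoid N] (f : ℕ → N) :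
    ∏ a ∈ Ico 1 p, f a = ∏ u : (ZMod p)ˣ, f (u : ZMod p).val := by
  have hp : p.Prime := Fact.out
  symm
  refine Finset.prod_bij (fun u _ => (u : ZMod p).val) ?_ ?_ ?_ ?_
  · intro u _
    rw [Finset.mem_Ico]
    refine ⟨?_, ZMod.val_lt _⟩
    rw [Nat.one_le_iff_ne_zero, Ne, ZMod.val_eq_zero]
    exact u.ne_zero
  · intro u _ v _ h
    exact Units.ext (ZMod.val_injective p h)
  · intro a ha
    rw [Finset.mem_Ico] at ha
    have hcop : Nat.Coprime a p :=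
      ((Nat.Prime.coprime_iff_not_dvd hp).2 fun h => by
        have := Nat.le_of_dvd (by omega) h; omega).symm
    refine ⟨ZMod.unitOfCoprime a hcop, Finset.mem_univ _, ?_⟩
    rw [ZMod.coe_unitOfCoprime, ZMod.val_natCast, Nat.mod_eq_of_lt ha.2]
  · intro u _
    rfl

lemma sum_Ico_eq_sum_units {N : Type*} [AddCommMonoid N] (f : ℕ → N) :
    ∑ a ∈ Ico 1 p, f a = ∑ u : (ZMod p)ˣ, f (u : ZMod p).val :=
  prod_Ico_eq_prod_units (N := Multiplicative N) f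

lemma expo_val (u : (ZMod p)ˣ) : expo p (u : ZMod p).val = (((u⁻¹ : (ZMod p)ˣ) : ZMod p) ^ 2).val := by
  unfold expo
  rw [ZMod.natCast_zmod_val, Units.val_inv_eq_inv_val]

lemma expo_cast (u : (ZMod p)ˣ) :
    ((expo p (u : ZMod p).val : ℕ) : ZMod p) = ((u⁻¹ : (ZMod p)ˣ) : ZMod p) ^ 2 := by
  rw [expo_val, ZMod.natCast_zmod_val]

/-- `∑ u⁻² = 0` for `p ≥ 5`. -/
lemma sum_units_inv_sq (hp5 : 5 ≤ p) : ∑ u : (ZMod p)ˣ, ((u⁻¹ : (ZMod p)ˣ) : ZMod p) ^ 2 = 0 := by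
  classical
  have h0 := Equiv.sum_comp (Equiv.inv (ZMod p)ˣ) (fun u : (ZMod p)ˣ => (u : ZMod p) ^ 2)
  simp only [Equiv.inv_apply] at h0
  rw [h0, FiniteField.sum_pow_units, ZMod.card, if_neg]
  intro h
  have := Nat.le_of_dvd (by norm_num) h
  omega

lemma dvd_sum_expo (hp5 : 5 ≤ p) : p ∣ ∑ a ∈ Ico 1 p, expo p a := by
  rw [← ZMod.natCast_eq_zero_iff, sum_Ico_eq_sum_units, Nat.cast_sum]
  simp only [expo_cast]
  exact sum_units_inv_sq hp5

end Reindex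

section Phi

variable {p : ℕ} [Fact p.Prime] {K : Type*} [Field K] [NumberField K]
  [IsCyclotomicExtension {p} ℚ K]

/-- The reduction map `𝓞 K → 𝔽_p[x]/(x^3)`, `ζ ↦ 1 + x`. -/
theorem exists_phi (hp5 : 5 ≤ p) {ζ : K} (hζ : IsPrimitiveRoot ζ p) :
    ∃ φ : 𝓞 K →+* T3 (ZMod p), φ hζ.toInteger = 1 + T3.X := by
  have hp : p.Prime := Fact.out
  have hmin : minpoly ℤ hζ.integralPowerBasis.gen = cyclotomic p ℤ := by
    rw [hζ.integralPowerBasis_gen, cyclotomic_eq_minpoly hζ (NeZero.pos p),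
      ← RingOfIntegers.minpoly_coe]
    rfl
  have hroot : aeval (1 + T3.X : T3 (ZMod p)) (minpoly ℤ hζ.integralPowerBasis.gen) = 0 := by
    rw [hmin, cyclotomic_prime, map_sum]
    simp only [map_pow, aeval_X]
    rw [T3.sum_one_add_X_pow]
    ext
    · simp
    · simp only [T3.zero_b]
      rw [ZMod.natCast_eq_zero_iff]
      exact hp.dvd_choose_self (by norm_num) (by omega)
    · simp only [T3.zero_c]
      rw [ZMod.natCast_eq_zero_iff]
      exact hp.dvd_choose_self (by norm_num) (by omega)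
  refine ⟨(hζ.integralPowerBasis.lift _ hroot).toRingHom, ?_⟩
  have := hζ.integralPowerBasis.lift_gen _ hroot
  rwa [hζ.integralPowerBasis_gen] at this

lemma phi_cyc {ζ : K} (hζ : IsPrimitiveRoot ζ p) (φ : 𝓞 K →+* T3 (ZMod p))
    (hφ : φ hζ.toInteger = 1 + T3.X) (a : ℕ) :
    φ (cyc hζ.toInteger a) = ∑ j ∈ range a, (1 + T3.X : T3 (ZMod p)) ^ j := by
  unfold cyc
  rw [map_sum]
  simp only [map_pow, hφ]

lemma cyc_isUnit {ζ : K} (hζ : IsPrimitiveRoot ζ p) {a : ℕ} (ha : ¬ p ∣ a) :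
    IsUnit (cyc hζ.toInteger a) := by
  have hp : p.Prime := Fact.out
  exact hζ.toInteger_isPrimitiveRoot.geom_sum_isUnit hp.two_le
    ((Nat.Prime.coprime_iff_not_dvd hp).2 ha).symm

lemma not_dvd_of_mem_Ico {a : ℕ} (ha : a ∈ Ico 1 p) : ¬ p ∣ a := by
  rw [Finset.mem_Ico] at ha
  intro h
  have := Nat.le_of_dvd (by omega) h
  omega

theorem eta_isUnit {ζ : K} (hζ : IsPrimitiveRoot ζ p) : IsUnit (eta p hζ.toInteger) := by
  unfold eta
  rw [IsUnit.prod_iff]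
  intro a ha
  exact (cyc_isUnit hζ (not_dvd_of_mem_Ico ha)).pow _

/-- `12 * l2 (φ η) = -1`. -/
lemma l2_phi_eta (hp5 : 5 ≤ p) {ζ : K} (hζ : IsPrimitiveRoot ζ p) (φ : 𝓞 K →+* T3 (ZMod p))
    (hφ : φ hζ.toInteger = 1 + T3.X) : 12 * T3.l2 (φ (eta p hζ.toInteger)) = -1 := by
  have hne : ∀ a ∈ Ico 1 p, (φ (cyc hζ.toInteger a)).a ≠ 0 := by
    intro a ha
    rw [phi_cyc hζ φ hφ, T3.sum_one_add_X_pow]
    simp only
    rw [Ne, ZMod.natCast_eq_zero_iff]
    exact not_dvd_of_mem_Ico ha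
  unfold eta
  rw [map_prod, T3.l2_prod]
  swap
  · intro a ha
    rw [map_pow, T3.pow_a]
    exact pow_ne_zero _ (hne a ha)
  rw [Finset.mul_sum]
  have h1 : ∀ a ∈ Ico 1 p, 12 * T3.l2 (φ (cyc hζ.toInteger a ^ expo p a))
      = ((expo p a : ℕ) : ZMod p) * ((a : ZMod p) ^ 2 - 1) := by
    intro a ha
    rw [map_pow, T3.l2_pow (hne a ha), phi_cyc hζ φ hφ, mul_left_comm,
      T3.l2_sum_one_add_X_pow]
    rw [Ne, ZMod.natCast_eq_zero_iff]
    exact not_dvd_of_mem_Ico ha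
  rw [Finset.sum_congr rfl h1,
    sum_Ico_eq_sum_units (fun a => ((expo p a : ℕ) : ZMod p) * ((a : ZMod p) ^ 2 - 1))]
  have h2 : ∀ u : (ZMod p)ˣ, ((expo p (u : ZMod p).val : ℕ) : ZMod p) *
      ((((u : ZMod p).val : ℕ) : ZMod p) ^ 2 - 1) = 1 - ((u⁻¹ : (ZMod p)ˣ) : ZMod p) ^ 2 := by
    intro u
    rw [expo_cast, ZMod.natCast_zmod_val, mul_sub, mul_one, ← mul_pow, Units.inv_mul, one_pow]
  rw [Finset.sum_congr rfl fun u _ => h2 u, Finset.sum_sub_distrib, sum_units_inv_sq hp5, sub_zero,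
    Finset.sum_const, Finset.card_univ, ZMod.card_units_eq_totient,
    Nat.totient_prime (Fact.out : p.Prime), nsmul_eq_mul, mul_one,
    Nat.cast_sub (Fact.out : p.Prime).one_le]
  simp

theorem eta_local (hp5 : 5 ≤ p) {ζ : K} (hζ : IsPrimitiveRoot ζ p) (k : ℕ) (x : 𝓞 K)
    (h : eta p hζ.toInteger ^ k - x ^ p ∈ (Ideal.span {hζ.toInteger - 1} : Ideal (𝓞 K)) ^ 3) :
    p ∣ k := by
  obtain ⟨φ, hφ⟩ := exists_phi hp5 hζ
  rw [Ideal.span_singleton_pow, Ideal.mem_span_singleton] at h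
  obtain ⟨w, hw⟩ := h
  have h1 : φ (eta p hζ.toInteger) ^ k = φ x ^ p := by
    have := congrArg φ hw
    rw [map_sub, map_mul, map_pow, map_pow, map_pow, map_sub, hφ, map_one, add_sub_cancel_left,
      T3.X_pow_three, zero_mul, sub_eq_zero] at this
    exact this
  have hηa : (φ (eta p hζ.toInteger)).a ≠ 0 := by
    have hu : IsUnit (T3.aHom (φ (eta p hζ.toInteger))) := ((eta_isUnit hζ).map φ).map T3.aHom
    exact hu.ne_zero
  have hxa : (φ x).a ≠ 0 := by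
    intro h0
    have := congrArg T3.a h1
    rw [T3.pow_a, T3.pow_a, h0, zero_pow (Fact.out : p.Prime).ne_zero] at this
    exact pow_ne_zero _ hηa this
  have h2 := congrArg T3.l2 h1
  rw [T3.l2_pow hηa, T3.l2_pow hxa, CharP.cast_eq_zero (ZMod p) p, zero_mul] at h2
  have h3 := l2_phi_eta hp5 hζ φ hφ
  rw [← ZMod.natCast_eq_zero_iff]
  have h4 : (k : ZMod p) * (12 * T3.l2 (φ (eta p hζ.toInteger))) = 0 := by
    rw [mul_left_comm, h2, mul_zero]
  rw [h3] at h4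
  simpa using h4

end Phi

section Cyc

variable {R : Type*} [CommRing R]

lemma cyc_add (z : R) (m n : ℕ) : cyc z (m + n) = cyc z m + z ^ m * cyc z n := by
  unfold cyc
  rw [Finset.sum_range_add, Finset.mul_sum]
  simp only [pow_add]

lemma cyc_mul (z : R) (a b : ℕ) : cyc z b * cyc (z ^ b) a = cyc z (a * b) := by
  induction a with
  | zero => simp [cyc]
  | succ a ih =>
    rw [Nat.succ_mul, cyc_add z (a * b) b, ← ih]
    have : cyc (z ^ b) (a + 1) = cyc (z ^ b) a + (z ^ b) ^ a := by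
      unfold cyc
      rw [Finset.sum_range_succ]
    rw [this, mul_add, ← pow_mul, mul_comm b a, mul_comm (cyc z b) (z ^ (a * b))]

lemma cyc_mod (z : R) (p : ℕ) (h0 : cyc z p = 0) (h1 : z ^ p = 1) (m : ℕ) :
    cyc z m = cyc z (m % p) := by
  conv_lhs => rw [← Nat.div_add_mod' m p]
  rw [cyc_add, ← cyc_mul, h0, zero_mul, zero_add, mul_comm (m / p) p, pow_mul, h1, one_pow, one_mul]

lemma map_cyc {S : Type*} [CommRing S] (f : R →+* S) (z : R) (a : ℕ) :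
    f (cyc z a) = cyc (f z) a := by
  unfold cyc
  rw [map_sum]
  simp only [map_pow]

end Cyc

section Eigen

variable {p : ℕ} [Fact p.Prime] {K : Type*} [Field K] [NumberField K]
  [IsCyclotomicExtension {p} ℚ K]

lemma coe_smul_int (σ : K ≃ₐ[ℚ] K) (x : 𝓞 K) : ((σ • x : 𝓞 K) : K) = σ (x : K) := rfl

lemma smul_toInteger {ζ : K} (hζ : IsPrimitiveRoot ζ p) (σ : K ≃ₐ[ℚ] K) (b : ℕ)
    (hσ : σ ζ = ζ ^ b) : σ • hζ.toInteger = hζ.toInteger ^ b := by
  apply RingOfIntegers.ext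
  rw [coe_smul_int, RingOfIntegers.coe_eq_algebraMap (hζ.toInteger ^ b), map_pow]
  exact hσ

lemma not_dvd_of_map_eq {ζ : K} (hζ : IsPrimitiveRoot ζ p) (σ : K ≃ₐ[ℚ] K) (b : ℕ)
    (hσ : σ ζ = ζ ^ b) : ¬ p ∣ b := by
  have hp : p.Prime := Fact.out
  intro h
  obtain ⟨k, rfl⟩ := h
  rw [pow_mul, hζ.pow_eq_one, one_pow] at hσ
  have h1 : ζ = 1 := by
    apply σ.injective
    rw [hσ, map_one]
  exact hζ.ne_one hp.one_lt h1

theorem eta_eigen (hp5 : 5 ≤ p) {ζ : K} (hζ : IsPrimitiveRoot ζ p) :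
    IsEigenUnit p ζ (eta_isUnit hζ).unit := by
  have hp : p.Prime := Fact.out
  intro σ b hσ
  rw [IsUnit.unit_spec]
  set z := hζ.toInteger with hz
  have hzprim : IsPrimitiveRoot z p := hζ.toInteger_isPrimitiveRoot
  have hz0 : cyc z p = 0 := hzprim.geom_sum_eq_zero hp.one_lt
  have hz1 : z ^ p = 1 := hzprim.pow_eq_one
  have hpb : ¬ p ∣ b := not_dvd_of_map_eq hζ σ b hσ
  have hcop : Nat.Coprime b p := ((Nat.Prime.coprime_iff_not_dvd hp).2 hpb).symm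
  set β : (ZMod p)ˣ := ZMod.unitOfCoprime b hcop with hβ
  have hβc : (β : ZMod p) = b := ZMod.coe_unitOfCoprime b hcop
  set s : 𝓞 K →+* 𝓞 K := MulSemiringAction.toRingHom (K ≃ₐ[ℚ] K) (𝓞 K) σ with hs
  have hsz : s z = z ^ b := smul_toInteger hζ σ b hσ
  have hsη : σ • eta p z = s (eta p z) := rfl
  rw [hsη]
  set C : (ZMod p)ˣ → 𝓞 K := fun u => cyc z (u : ZMod p).val with hC
  set n : (ZMod p)ˣ → ℕ := fun u => expo p (u : ZMod p).val with hn
  have hη : eta p z = ∏ u : (ZMod p)ˣ, C u ^ n u := by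
    unfold eta
    rw [prod_Ico_eq_prod_units (fun a => cyc z a ^ expo p a)]
  have hCu : ∀ u, IsUnit (C u) := by
    intro u
    apply cyc_isUnit hζ
    rw [← ZMod.natCast_eq_zero_iff, ZMod.natCast_zmod_val]
    exact u.ne_zero
  -- Claim 1
  have h1 : ∀ u, cyc z b * s (C u) = C (u * β) := by
    intro u
    simp only [hC]
    rw [map_cyc, hsz, cyc_mul, cyc_mod z p hz0 hz1]
    congr 1
    rw [← ZMod.val_natCast]
    congr 1
    push_cast
    rw [ZMod.natCast_zmod_val, hβc]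
  -- Claim 2
  obtain ⟨N, hN⟩ : p ∣ ∑ u : (ZMod p)ˣ, n u := by
    have := dvd_sum_expo (p := p) hp5
    rwa [sum_Ico_eq_sum_units] at this
  have h2 : cyc z b ^ (p * N) * s (eta p z) = ∏ u : (ZMod p)ˣ, C (u * β) ^ n u := by
    rw [← hN, hη, map_prod, ← Finset.prod_pow_eq_pow_sum, ← Finset.prod_mul_distrib]
    refine Finset.prod_congr rfl fun u _ => ?_
    rw [map_pow, ← mul_pow, h1]
  -- Claim 3
  have h3 : ∏ u : (ZMod p)ˣ, C (u * β) ^ n u = ∏ u : (ZMod p)ˣ, C u ^ n (u * β⁻¹) := by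
    refine Fintype.prod_equiv (Equiv.mulRight β) _ _ fun u => ?_
    simp only [Equiv.coe_mulRight, mul_inv_cancel_right]
  -- Claim 4
  have h4 : ∀ u, n (u * β⁻¹) = (b ^ 2 * n u) % p := by
    intro u
    simp only [hn]
    rw [expo_val, ← ZMod.val_natCast]
    congr 1
    push_cast
    rw [expo_cast, hβc, Units.val_inv_eq_inv_val, mul_inv, inv_inv, mul_pow, mul_comm]
  -- Claim 5
  set W : 𝓞 K := ∏ u : (ZMod p)ˣ, C u ^ ((b ^ 2 * n u) / p) with hW
  have h5 : eta p z ^ (b ^ 2) = (∏ u : (ZMod p)ˣ, C u ^ n (u * β⁻¹)) * W ^ p := by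
    rw [hη, hW, ← Finset.prod_pow, ← Finset.prod_pow, ← Finset.prod_mul_distrib]
    refine Finset.prod_congr rfl fun u _ => ?_
    rw [h4, ← pow_mul, ← pow_mul, ← pow_add]
    congr 1
    rw [mul_comm (n u) (b ^ 2), mul_comm _ p, Nat.mod_add_div]
  have hWu : IsUnit W := by
    rw [hW, IsUnit.prod_iff]
    intro u _
    exact (hCu u).pow _
  have hU : IsUnit (cyc z b ^ N * W) := ((cyc_isUnit hζ hpb).pow N).mul hWu
  refine ⟨hU.unit⁻¹, ?_⟩
  have hv : cyc z b ^ N * W * ((hU.unit⁻¹ : (𝓞 K)ˣ) : 𝓞 K) = 1 := hU.mul_val_inv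
  have : eta p z ^ (b ^ 2) * ((hU.unit⁻¹ : (𝓞 K)ˣ) : 𝓞 K) ^ p
      = s (eta p z) * (cyc z b ^ N * W * ((hU.unit⁻¹ : (𝓞 K)ˣ) : 𝓞 K)) ^ p := by
    rw [h5, ← h3, ← h2]
    ring
  rw [this, hv, one_pow, mul_one]

end Eigen

end Fermat.Agent.S14.Units
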