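import Mathlib

/-!
# S14, block U : a Minkowski unit

For a number field `K`, Galois over `ℚ` with cyclic Galois group generated by `σ`, the group of
units modulo torsion is quasi-cyclic as a `ℤ[σ]`-module.
-/

set_option autoImplicit false
set_option linter.unusedSectionVars false
set_option maxSynthPendingDepth 3

namespace Fermat.Agent.S14.Units

open NumberField NumberField.Units NumberField.Units.dirichletUnitTheorem NumberField.InfinitePlace
open Finset

section General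

variable (K : Type*) [Field K] [NumberField K]

set_option backward.isDefEq.respectTransparency.types false in
/-- A family of units, indexed by the infinite places `w ≠ w₀`, such that the unit of index `w` is
small at all the places different from `w`, is of maximal rank.  (This is the argument of
Mathlib's proof of the unit theorem.) -/
theorem linearIndependent_logEmbedding
    (f : {w : InfinitePlace K // w ≠ w₀} → (𝓞 K)ˣ)
    (hf : ∀ (w : {w : InfinitePlace K // w ≠ w₀}) (w' : InfinitePlace K), w' ≠ w.1 →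
      Real.log (w' (f w)) < 0) :
    LinearIndependent ℝ (fun w => logEmbedding K (Additive.ofMul (f w))) := by
  classical
  let B := Pi.basisFun ℝ {w : InfinitePlace K // w ≠ w₀}
  let v := fun w : { w : InfinitePlace K // w ≠ w₀ } ↦ logEmbedding K (Additive.ofMul (f w))
  suffices B.det v ≠ 0 by
    rw [← isUnit_iff_ne_zero, ← Module.Basis.is_basis_iff_det] at this
    exact this.1
  rw [Module.Basis.det_apply]
  refine det_ne_zero_of_sum_col_lt_diag (fun w ↦ ?_)
  simp_rw [Real.norm_eq_abs, B, Module.Basis.coePiBasisFun.toMatrix_eq_transpose,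
    Matrix.transpose_apply]
  rw [← sub_pos, sum_congr rfl (fun x hx ↦ abs_of_neg ?_), sum_neg_distrib, sub_neg_eq_add,
    sum_erase_eq_sub (mem_univ _), ← add_comm_sub]
  · refine add_pos_of_nonneg_of_pos ?_ ?_
    · rw [sub_nonneg]
      exact le_abs_self _
    · rw [sum_logEmbedding_component (f w)]
      refine mul_pos_of_neg_of_neg ?_ (hf w _ w.prop.symm)
      rw [mult]; split_ifs <;> norm_num
  · refine mul_neg_of_pos_of_neg ?_ (hf w x ?_)
    · rw [mult]; split_ifs <;> norm_num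
    · exact Subtype.ext_iff.not.mp (ne_of_mem_erase hx)

/-- The subgroup generated by such a family has finite index. -/
theorem exists_pow_mem_closure
    (f : {w : InfinitePlace K // w ≠ w₀} → (𝓞 K)ˣ)
    (hf : ∀ (w : {w : InfinitePlace K // w ≠ w₀}) (w' : InfinitePlace K), w' ≠ w.1 →
      Real.log (w' (f w)) < 0) :
    ∃ n : ℕ, n ≠ 0 ∧ ∀ x : (𝓞 K)ˣ, x ^ n ∈ Subgroup.closure (Set.range f) := by
  classical
  have h1 := linearIndependent_logEmbedding K f hf
  have h2 : IsMaxRank (f ∘ equivFinRank K) :=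
    (linearIndependent_equiv (equivFinRank K)).mpr h1
  have h3 := isMaxRank_iff_closure_finiteIndex.1 h2
  have h4 : Set.range (f ∘ equivFinRank K) = Set.range f := (equivFinRank K).surjective.range_comp f
  rw [h4] at h3
  exact ⟨_, h3.index_ne_zero, fun x => Subgroup.pow_index_mem _ x⟩

end General

section Galois

variable {K : Type*} [Field K] [NumberField K]

/-- The action of an automorphism on the units. -/
noncomputable def unitMap (σ : K ≃ₐ[ℚ] K) : (𝓞 K)ˣ →* (𝓞 K)ˣ :=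
  Units.map (MulSemiringAction.toRingHom (K ≃ₐ[ℚ] K) (𝓞 K) σ : 𝓞 K →* 𝓞 K)

lemma coe_unitMap (σ : K ≃ₐ[ℚ] K) (u : (𝓞 K)ˣ) :
    ((unitMap σ u : (𝓞 K)ˣ) : 𝓞 K) = σ • (u : 𝓞 K) := rfl

lemma coe_coe_unitMap (σ : K ≃ₐ[ℚ] K) (u : (𝓞 K)ˣ) :
    (((unitMap σ u : (𝓞 K)ˣ) : 𝓞 K) : K) = σ ((u : 𝓞 K) : K) := rfl

lemma unitMap_mul (σ τ : K ≃ₐ[ℚ] K) (u : (𝓞 K)ˣ) :
    unitMap (σ * τ) u = unitMap σ (unitMap τ u) := by
  ext
  simp only [coe_unitMap, mul_smul]

lemma unitMap_one (u : (𝓞 K)ˣ) : unitMap (1 : K ≃ₐ[ℚ] K) u = u := by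
  ext
  simp only [coe_unitMap, one_smul]

lemma unitMap_mem_torsion (σ : K ≃ₐ[ℚ] K) {u : (𝓞 K)ˣ} (hu : u ∈ torsion K) :
    unitMap σ u ∈ torsion K := by
  rw [torsion, CommGroup.mem_torsion] at hu ⊢
  exact (unitMap σ).isOfFinOrder hu

variable (K) in
/-- The units modulo torsion, additively. -/
abbrev UM := Additive ((𝓞 K)ˣ ⧸ torsion K)

/-- The class of a unit modulo torsion. -/
def cl (u : (𝓞 K)ˣ) : UM K := Additive.ofMul (QuotientGroup.mk u)

lemma cl_one : cl (1 : (𝓞 K)ˣ) = 0 := rfl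

lemma cl_mul (u v : (𝓞 K)ˣ) : cl (u * v) = cl u + cl v := rfl

lemma cl_inv (u : (𝓞 K)ˣ) : cl u⁻¹ = - cl u := rfl

lemma cl_pow (u : (𝓞 K)ˣ) (n : ℕ) : cl (u ^ n) = n • cl u := rfl

lemma cl_zpow (u : (𝓞 K)ˣ) (n : ℤ) : cl (u ^ n) = n • cl u := rfl

lemma cl_surjective (x : UM K) : ∃ u : (𝓞 K)ˣ, x = cl u := by
  obtain ⟨u, hu⟩ := QuotientGroup.mk_surjective (Additive.toMul x)
  exact ⟨u, by rw [cl, hu]; rfl⟩

lemma cl_eq_zero_iff {u : (𝓞 K)ˣ} : cl u = 0 ↔ u ∈ torsion K := by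
  rw [cl, ofMul_eq_zero, QuotientGroup.eq_one_iff]

/-- The endomorphism of the units modulo torsion defined by an automorphism. -/
noncomputable def TM (σ : K ≃ₐ[ℚ] K) : Module.End ℤ (UM K) :=
  (MonoidHom.toAdditive (QuotientGroup.map (torsion K) (torsion K) (unitMap σ)
    (fun _ hu => unitMap_mem_torsion σ hu))).toIntLinearMap

lemma TM_cl (σ : K ≃ₐ[ℚ] K) (u : (𝓞 K)ˣ) : TM σ (cl u) = cl (unitMap σ u) := rfl

lemma TM_pow_cl (σ : K ≃ₐ[ℚ] K) (i : ℕ) (u : (𝓞 K)ˣ) :
    (TM σ ^ i) (cl u) = cl (unitMap (σ ^ i) u) := by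
  induction i with
  | zero => simp [unitMap_one]
  | succ i ih => rw [pow_succ', Module.End.mul_apply, ih, TM_cl, pow_succ', unitMap_mul]

lemma TM_pow_eq_one (σ : K ≃ₐ[ℚ] K) (m : ℕ) (h : σ ^ m = 1) : TM σ ^ m = 1 := by
  ext x
  obtain ⟨u, rfl⟩ := cl_surjective x
  rw [TM_pow_cl, h, unitMap_one, Module.End.one_apply]

lemma UM_torsionFree (n : ℤ) (z : UM K) (hn : n ≠ 0) (h : n • z = 0) : z = 0 :=
  (smul_eq_zero.1 h).resolve_left hn

/-- **Minkowski unit.**  If the Galois group is generated by `σ`, the units modulo torsion are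
quasi-cyclic. -/
theorem exists_quasi_cyclic [IsGalois ℚ K] (σ : K ≃ₐ[ℚ] K)
    (hσ : ∀ τ : K ≃ₐ[ℚ] K, ∃ i : ℕ, τ = σ ^ i) :
    ∃ u₀ : UM K, ∀ x : UM K, ∃ n : ℤ, n ≠ 0 ∧
      n • x ∈ Submodule.span ℤ (Set.range fun i : ℕ => (TM σ ^ i) u₀) := by
  obtain ⟨u, hu⟩ := exists_unit K (w₀ : InfinitePlace K)
  have htr : ∀ w : InfinitePlace K, ∃ τ : K ≃ₐ[ℚ] K, τ • (w₀ : InfinitePlace K) = w :=
    fun w => exists_smul_eq_of_comap_eq (Subsingleton.elim _ _)
  choose τ hτ using htr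
  let f : {w : InfinitePlace K // w ≠ w₀} → (𝓞 K)ˣ := fun w => unitMap (τ w.1) u
  have hf : ∀ (w : {w : InfinitePlace K // w ≠ w₀}) (w' : InfinitePlace K), w' ≠ w.1 →
      Real.log (w' (f w)) < 0 := by
    intro w w' hw
    have h1 : w' (f w) = ((τ w.1)⁻¹ • w') u := rfl
    rw [h1]
    apply hu
    intro h
    apply hw
    rw [inv_smul_eq_iff] at h
    rw [h, hτ]
  obtain ⟨n, hn, hx⟩ := exists_pow_mem_closure K f hf
  refine ⟨cl u, fun x => ?_⟩
  obtain ⟨v, rfl⟩ := cl_surjective x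
  refine ⟨n, by exact_mod_cast hn, ?_⟩
  rw [natCast_zsmul, ← cl_pow]
  have key : ∀ y ∈ Subgroup.closure (Set.range f),
      cl y ∈ Submodule.span ℤ (Set.range fun i : ℕ => (TM σ ^ i) (cl u)) := by
    intro y hy
    induction hy using Subgroup.closure_induction with
    | mem y hy =>
      obtain ⟨w, rfl⟩ := hy
      obtain ⟨i, hi⟩ := hσ (τ w.1)
      apply Submodule.subset_span
      refine ⟨i, ?_⟩
      simp only [f]
      rw [TM_pow_cl, hi]
    | one => rw [cl_one]; exact Submodule.zero_mem _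
    | mul y z _ _ hy hz => rw [cl_mul]; exact Submodule.add_mem _ hy hz
    | inv y _ hy => rw [cl_inv]; exact Submodule.neg_mem _ hy
  exact key _ (hx v)

end Galois

end Fermat.Agent.S14.Units
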