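import Fermat.Agent.S14.Units.Abstract
import Fermat.Agent.S14.Units.Minkowski
import Fermat.Agent.S14.Units.Eta

/-!
# S14, block U : the `ω²`-eigenspace of the units modulo `p`-th powers

`unit_eigenspace_dim` (U1) and `unit_pth_power` (UN) of the blueprint.
-/

set_option autoImplicit false
set_option linter.unusedSectionVars false
set_option maxSynthPendingDepth 3

namespace Fermat.Agent.S14.Units

open NumberField NumberField.Units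

section Additive

variable {A : Type*} [AddCommGroup A]

/-- Killing the torsion part with an involution acting by `-1` on it. -/
lemma torsion_kill (t : A →+ A) (p k : ℤ) (hk : p = 2 * k + 1) (U₁ U₂ V Ξ R₁ R₂ : A) (a b : ℤ)
    (hΞ : Ξ = a • U₁ + b • U₂ - p • V) (h₁ : t U₁ = U₁ + p • R₁) (h₂ : t U₂ = U₂ + p • R₂)
    (ht : t Ξ = -Ξ) : ∃ W : A, a • U₁ + b • U₂ = p • W := by
  have h3 : t Ξ = a • (U₁ + p • R₁) + b • (U₂ + p • R₂) - p • t V := by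
    rw [hΞ, map_sub, map_add, map_zsmul, map_zsmul, map_zsmul, h₁, h₂]
  rw [ht] at h3
  refine ⟨V - (k + 1) • (a • R₁ + b • R₂ + V - t V) - Ξ, ?_⟩
  subst hk
  have h4 : a • U₁ + b • U₂ = Ξ + (2 * k + 1) • V := by rw [hΞ]; abel
  have h5 : (2 : ℤ) • Ξ = - ((2 * k + 1) • (a • R₁ + b • R₂ + V - t V)) := by
    have : -Ξ = Ξ + (2 * k + 1) • (a • R₁ + b • R₂ + V - t V) := by
      rw [h3, hΞ]
      module
    linear_combination (norm := module) -this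
  rw [h4]
  linear_combination (norm := module) (k + 1) • h5

lemma bezout_aux {p : ℕ} (hp : p.Prime) (U₁ U₂ W : A) (a b : ℤ) (hb : ¬ (p : ℤ) ∣ b)
    (h : a • U₁ + b • U₂ = (p : ℤ) • W) : ∃ (k : ℕ) (W' : A), U₂ = k • U₁ + p • W' := by
  have hpZ : Prime (p : ℤ) := Nat.prime_iff_prime_int.1 hp
  have hcop : IsCoprime b (p : ℤ) := ((hpZ.irreducible.coprime_iff_not_dvd).2 hb).symm
  obtain ⟨β, s, hβ⟩ := hcop
  set m : ℤ := -(a * β) with hm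
  have hp0 : (p : ℤ) ≠ 0 := hpZ.ne_zero
  have hk0 : 0 ≤ m % p := Int.emod_nonneg _ hp0
  have hk1 : ((m % p).toNat : ℤ) = m % p := Int.toNat_of_nonneg hk0
  have hm2 : m = m % p + p * (m / p) := (Int.emod_add_mul_ediv m p).symm
  refine ⟨(m % p).toNat, β • W + (m / p) • U₁ + s • U₂, ?_⟩
  rw [← natCast_zsmul, ← natCast_zsmul (β • W + (m / p) • U₁ + s • U₂), hk1]
  have e1 : U₂ = (β * b + s * p) • U₂ := by rw [hβ, one_smul]
  have e2 : (m % p) • U₁ = (m - p * (m / p)) • U₁ := by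
    congr 1
    linarith
  rw [e2, hm]
  linear_combination (norm := module) e1 + β • h

end Additive

section Cyclo

variable {p : ℕ} [Fact p.Prime] {K : Type*} [Field K] [NumberField K]
  [IsCyclotomicExtension {p} ℚ K]

variable (p K) in
lemma exists_gal_generator :
    ∃ σ : K ≃ₐ[ℚ] K, (∀ τ : K ≃ₐ[ℚ] K, ∃ i : ℕ, τ = σ ^ i) ∧ σ ^ (p - 1) = 1 := by
  let e := IsCyclotomicExtension.Rat.galEquivZMod p K
  obtain ⟨γ, hγ⟩ := IsCyclic.exists_generator (α := (ZMod p)ˣ)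
  refine ⟨e.symm γ, fun τ => ?_, ?_⟩
  · have h1 : e τ ∈ Submonoid.powers γ := mem_powers_iff_mem_zpowers.2 (hγ (e τ))
    obtain ⟨i, hi⟩ := h1
    refine ⟨i, ?_⟩
    have hi' : γ ^ i = e τ := hi
    rw [← map_pow, hi', MulEquiv.symm_apply_apply]
  · rw [← map_pow, ZMod.units_pow_card_sub_one_eq_one, map_one]

lemma exists_pow_of_gal {ζ : K} (hζ : IsPrimitiveRoot ζ p) (σ : K ≃ₐ[ℚ] K) :
    ∃ g : ℕ, σ ζ = ζ ^ g :=
  ⟨_, IsCyclotomicExtension.Rat.galEquivZMod_apply_of_pow_eq p K σ hζ.pow_eq_one⟩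

lemma exists_conj {ζ : K} (hζ : IsPrimitiveRoot ζ p) :
    ∃ (τ : K ≃ₐ[ℚ] K) (b : ℕ), τ ζ = ζ ^ b ∧ (b : ZMod p) = -1 := by
  let e := IsCyclotomicExtension.Rat.galEquivZMod p K
  refine ⟨e.symm (-1), ((e (e.symm (-1))).val.val),
    IsCyclotomicExtension.Rat.galEquivZMod_apply_of_pow_eq p K _ hζ.pow_eq_one, ?_⟩
  rw [MulEquiv.apply_symm_apply, ZMod.natCast_zmod_val]
  simp

lemma unitMap_of_eigen {ζ : K} {u : (𝓞 K)ˣ} (hu : IsEigenUnit p ζ u) (σ : K ≃ₐ[ℚ] K) (b : ℕ)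
    (hσ : σ ζ = ζ ^ b) : ∃ v : (𝓞 K)ˣ, unitMap σ u = u ^ (b ^ 2) * v ^ p := by
  obtain ⟨v, hv⟩ := hu σ b hσ
  refine ⟨v, Units.ext ?_⟩
  rw [coe_unitMap, hv]
  push_cast
  rfl

/-- The "complex conjugation" inverts the roots of unity. -/
lemma unitMap_torsion (hp2 : p ≠ 2) {ζ : K} (hζ : IsPrimitiveRoot ζ p) (τ : K ≃ₐ[ℚ] K) (b : ℕ)
    (hτ : τ ζ = ζ ^ b) (hb : (b : ZMod p) = -1) {ξ : (𝓞 K)ˣ} (hξ : ξ ∈ torsion K) :
    unitMap τ ξ = ξ⁻¹ := by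
  have hp : p.Prime := Fact.out
  rw [eq_inv_iff_mul_eq_one]
  apply Units.ext
  apply RingOfIntegers.ext
  have hfin : IsOfFinOrder ((ξ : 𝓞 K) : K) := by
    rw [torsion, CommGroup.mem_torsion] at hξ
    have h1 := (Units.coeHom (𝓞 K)).isOfFinOrder hξ
    exact (algebraMap (𝓞 K) K : 𝓞 K →* K).isOfFinOrder h1
  obtain ⟨r, hr⟩ := hζ.exists_neg_pow_of_isOfFinOrder (hp.odd_of_ne_two hp2) hfin
  have hb1 : ζ ^ b * ζ = 1 := by
    rw [← pow_succ]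
    have : p ∣ b + 1 := by
      rw [← ZMod.natCast_eq_zero_iff]
      push_cast
      rw [hb]
      ring
    obtain ⟨k, hk⟩ := this
    rw [hk, pow_mul, hζ.pow_eq_one, one_pow]
  have h2 : (((unitMap τ ξ * ξ : (𝓞 K)ˣ) : 𝓞 K) : K) = τ ((ξ : 𝓞 K) : K) * ((ξ : 𝓞 K) : K) := rfl
  rw [h2, hr, map_pow, map_neg, hτ, ← mul_pow, neg_mul_neg, hb1, one_pow]
  rfl

/-- **U1.**  The `ω²`-eigenspace of the units modulo `p`-th powers has dimension at most one. -/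
theorem unit_eigenspace_dim (hp5 : 5 ≤ p) {ζ : K} (hζ : IsPrimitiveRoot ζ p) (u₁ u₂ : (𝓞 K)ˣ)
    (h₁ : IsEigenUnit p ζ u₁) (h₂ : IsEigenUnit p ζ u₂) (hu₁ : ¬ ∃ v : (𝓞 K)ˣ, u₁ = v ^ p) :
    ∃ (k : ℕ) (v : (𝓞 K)ˣ), u₂ = u₁ ^ k * v ^ p := by
  have hp : p.Prime := Fact.out
  have hp2 : p ≠ 2 := by omega
  have : IsGalois ℚ K := IsCyclotomicExtension.isGalois {p} ℚ K
  obtain ⟨σ, hgen, hord⟩ := exists_gal_generator p K
  obtain ⟨g, hg⟩ := exists_pow_of_gal hζ σ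
  have hpg : ¬ p ∣ g := not_dvd_of_map_eq hζ σ g hg
  have hpc : ¬ p ∣ g ^ 2 := fun h => hpg (hp.dvd_of_dvd_pow h)
  obtain ⟨u₀, hu₀⟩ := exists_quasi_cyclic σ hgen
  have heig : ∀ u : (𝓞 K)ˣ, IsEigenUnit p ζ u →
      TM σ (cl u) - ((g ^ 2 : ℕ) : ℤ) • cl u ∈ mulSub (UM K) p := by
    intro u hu
    obtain ⟨v, hv⟩ := unitMap_of_eigen hu σ g hg
    rw [TM_cl, hv, cl_mul, cl_pow, cl_pow, natCast_zsmul, add_sub_cancel_left, ← natCast_zsmul]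
    exact smul_mem_mulSub _ _
  obtain ⟨a, b, hab, hmem⟩ := eigen_dependent UM_torsionFree hp (TM σ) (TM_pow_eq_one σ _ hord)
    (g ^ 2) hpc u₀ hu₀ (cl u₁) (cl u₂) (heig u₁ h₁) (heig u₂ h₂)
  obtain ⟨w, hw⟩ := mem_mulSub.1 hmem
  obtain ⟨v, rfl⟩ := cl_surjective w
  set ξ : (𝓞 K)ˣ := u₁ ^ a * u₂ ^ b * (v ^ p)⁻¹ with hξ
  have hξt : ξ ∈ torsion K := by
    rw [← cl_eq_zero_iff, hξ, cl_mul, cl_mul, cl_zpow, cl_zpow, cl_inv, cl_pow, hw, natCast_zsmul,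
      add_neg_cancel]
  obtain ⟨τ, c, hτ, hc⟩ := exists_conj hζ
  obtain ⟨s, hs⟩ : ∃ s : ℤ, ((c ^ 2 : ℕ) : ℤ) = 1 + p * s := by
    have : (p : ℤ) ∣ ((c ^ 2 : ℕ) : ℤ) - 1 := by
      rw [← ZMod.intCast_zmod_eq_zero_iff_dvd]
      push_cast
      rw [hc]
      ring
    obtain ⟨s, hs⟩ := this
    exact ⟨s, by linarith⟩
  have hconj : ∀ u : (𝓞 K)ˣ, IsEigenUnit p ζ u → ∃ R : Additive (𝓞 K)ˣ,
      (unitMap τ).toAdditive (Additive.ofMul u) = Additive.ofMul u + (p : ℤ) • R := by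
    intro u hu
    obtain ⟨v, hv⟩ := unitMap_of_eigen hu τ c hτ
    refine ⟨s • Additive.ofMul u + Additive.ofMul v, ?_⟩
    have h : (unitMap τ).toAdditive (Additive.ofMul u)
        = (c ^ 2 : ℕ) • Additive.ofMul u + (p : ℕ) • Additive.ofMul v := by
      change Additive.ofMul (unitMap τ u) = _
      rw [hv]
      rfl
    rw [h, ← natCast_zsmul, ← natCast_zsmul, hs]
    module
  obtain ⟨R₁, hR₁⟩ := hconj u₁ h₁
  obtain ⟨R₂, hR₂⟩ := hconj u₂ h₂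
  obtain ⟨k, hk⟩ := hp.odd_of_ne_two hp2
  have hΞ : Additive.ofMul ξ = a • Additive.ofMul u₁ + b • Additive.ofMul u₂
      - (p : ℤ) • Additive.ofMul v := by
    rw [sub_eq_add_neg, natCast_zsmul]
    rfl
  have ht : (unitMap τ).toAdditive (Additive.ofMul ξ) = - Additive.ofMul ξ := by
    change Additive.ofMul (unitMap τ ξ) = _
    rw [unitMap_torsion hp2 hζ τ c hτ hc hξt]
    rfl
  obtain ⟨W, hW⟩ := torsion_kill (unitMap τ).toAdditive (p : ℤ) (k : ℤ) (by rw [hk]; push_cast; ring)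
    (Additive.ofMul u₁) (Additive.ofMul u₂) (Additive.ofMul v) (Additive.ofMul ξ) R₁ R₂ a b
    hΞ hR₁ hR₂ ht
  by_cases hb : (p : ℤ) ∣ b
  · exfalso
    have ha : ¬ (p : ℤ) ∣ a := fun ha => hab ⟨ha, hb⟩
    obtain ⟨b', rfl⟩ := hb
    have h3 : (0 : ℤ) • (0 : Additive (𝓞 K)ˣ) + a • Additive.ofMul u₁
        = (p : ℤ) • (W - b' • Additive.ofMul u₂) := by
      linear_combination (norm := module) hW
    obtain ⟨k', W', hW'⟩ := bezout_aux hp _ _ _ _ _ ha h3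
    apply hu₁
    refine ⟨Additive.toMul W', ?_⟩
    rw [smul_zero, zero_add] at hW'
    exact hW'
  · obtain ⟨k', W', hW'⟩ := bezout_aux hp _ _ _ _ _ hb hW
    exact ⟨k', Additive.toMul W', hW'⟩

/-- **UN.**  An `ω²`-eigenunit which is a `p`-th power modulo `(1 - ζ)^3` is a `p`-th power. -/
theorem unit_pth_power (hp5 : 5 ≤ p) {ζ : K} (hζ : IsPrimitiveRoot ζ p) (u : (𝓞 K)ˣ)
    (hu : IsEigenUnit p ζ u) (x : 𝓞 K)
    (hx : (u : 𝓞 K) - x ^ p ∈ (Ideal.span {hζ.toInteger - 1} : Ideal (𝓞 K)) ^ 3) :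
    ∃ v : (𝓞 K)ˣ, u = v ^ p := by
  have hp : p.Prime := Fact.out
  set η : (𝓞 K)ˣ := (eta_isUnit hζ).unit with hη
  have hηc : (η : 𝓞 K) = eta p hζ.toInteger := IsUnit.unit_spec _
  have hηn : ¬ ∃ v : (𝓞 K)ˣ, η = v ^ p := by
    rintro ⟨v, hv⟩
    have h1 : eta p hζ.toInteger ^ 1 - (v : 𝓞 K) ^ p
        ∈ (Ideal.span {hζ.toInteger - 1} : Ideal (𝓞 K)) ^ 3 := by
      rw [pow_one, ← hηc, hv]
      push_cast
      rw [sub_self]
      exact Ideal.zero_mem _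
    have := eta_local hp5 hζ 1 _ h1
    exact hp.one_lt.ne' (Nat.dvd_one.1 this)
  obtain ⟨k, v, hkv⟩ := unit_eigenspace_dim hp5 hζ η u (eta_eigen hp5 hζ) hu hηn
  have h2 : eta p hζ.toInteger ^ k - (x * ((v⁻¹ : (𝓞 K)ˣ) : 𝓞 K)) ^ p
      ∈ (Ideal.span {hζ.toInteger - 1} : Ideal (𝓞 K)) ^ 3 := by
    have h3 : eta p hζ.toInteger ^ k - (x * ((v⁻¹ : (𝓞 K)ˣ) : 𝓞 K)) ^ p
        = ((u : 𝓞 K) - x ^ p) * ((v⁻¹ : (𝓞 K)ˣ) : 𝓞 K) ^ p := by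
      have h4 : (u : 𝓞 K) = eta p hζ.toInteger ^ k * (v : 𝓞 K) ^ p := by
        rw [hkv, ← hηc]
        push_cast
        rfl
      have h5 : (v : 𝓞 K) * ((v⁻¹ : (𝓞 K)ˣ) : 𝓞 K) = 1 := Units.mul_inv v
      rw [h4, sub_mul, mul_assoc, ← mul_pow, h5, one_pow, mul_one, mul_pow]
    rw [h3]
    exact Ideal.mul_mem_right _ _ hx
  obtain ⟨k', rfl⟩ := eta_local hp5 hζ k _ h2
  exact ⟨η ^ k' * v, by rw [hkv, mul_pow, ← pow_mul, mul_comm k' p]⟩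

end Cyclo

end Fermat.Agent.S14.Units
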