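import Mathlib

/-!
# S14, block U : an abstract lemma on eigenvectors modulo `p`

`M` is a torsion-free abelian group with an endomorphism `T` of order dividing `p - 1`, which is
"quasi-cyclic": some `u₀` has the property that a nonzero multiple of every element lies in the
span of the `T ^ i u₀`.  Then any two vectors which are eigenvectors of `T` modulo `p` for the same
eigenvalue `c` (prime to `p`) are linearly dependent modulo `p`.
-/

set_option autoImplicit false

namespace Fermat.Agent.S14.Units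

open Finset

section Abstract

variable {M : Type*} [AddCommGroup M]

/-- The submodule `q M`. -/
def mulSub (M : Type*) [AddCommGroup M] (q : ℤ) : Submodule ℤ M :=
  LinearMap.range (LinearMap.lsmul ℤ M q)

lemma mem_mulSub {q : ℤ} {z : M} : z ∈ mulSub M q ↔ ∃ w : M, z = q • w := by
  constructor
  · rintro ⟨w, hw⟩
    exact ⟨w, hw.symm⟩
  · rintro ⟨w, hw⟩
    exact ⟨w, hw.symm⟩

lemma smul_mem_mulSub (q : ℤ) (w : M) : q • w ∈ mulSub M q := mem_mulSub.2 ⟨w, rfl⟩

lemma smul_mem_mulSub_of_dvd {q n : ℤ} (h : q ∣ n) (w : M) : n • w ∈ mulSub M q := by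
  obtain ⟨k, rfl⟩ := h
  exact mem_mulSub.2 ⟨k • w, by rw [mul_smul]⟩

lemma mulSub_le_of_dvd {q n : ℤ} (h : q ∣ n) : mulSub M n ≤ mulSub M q := by
  intro z hz
  obtain ⟨w, rfl⟩ := mem_mulSub.1 hz
  exact smul_mem_mulSub_of_dvd h w

lemma map_mem_mulSub (T : Module.End ℤ M) {q : ℤ} {z : M} (hz : z ∈ mulSub M q) :
    T z ∈ mulSub M q := by
  obtain ⟨w, rfl⟩ := mem_mulSub.1 hz
  rw [map_smul]
  exact smul_mem_mulSub q _

/-- Cancelling an integer which is not divisible by `p ^ j`. -/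
lemma mem_mulSub_of_smul_mem (htf : ∀ (n : ℤ) (z : M), n ≠ 0 → n • z = 0 → z = 0)
    {p : ℤ} (hp : Prime p) :
    ∀ (j i : ℕ) (N : ℤ) (z : M), N • z ∈ mulSub M (p ^ (i + j)) → ¬ p ^ j ∣ N →
      z ∈ mulSub M (p ^ (i + 1)) := by
  intro j
  induction j with
  | zero =>
    intro i N z _ h
    exact absurd (by simp) h
  | succ j ih =>
    intro i N z hz hN
    by_cases hpN : p ∣ N
    · obtain ⟨N', rfl⟩ := hpN
      obtain ⟨w, hw⟩ := mem_mulSub.1 hz
      have h1 : p • (N' • z - p ^ (i + j) • w) = 0 := by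
        rw [smul_sub, ← mul_smul, hw, ← mul_smul, ← pow_succ', add_assoc, sub_self]
      have h2 := htf p _ hp.ne_zero h1
      refine ih i N' z ?_ ?_
      · rw [sub_eq_zero.1 h2]
        exact smul_mem_mulSub _ _
      · intro h
        apply hN
        rw [pow_succ']
        exact mul_dvd_mul_left p h
    · have hcop : IsCoprime N (p ^ (i + (j + 1))) :=
        ((hp.irreducible.coprime_iff_not_dvd).2 hpN).symm.pow_right
      obtain ⟨α, β, hαβ⟩ := hcop
      have hz' : z = α • (N • z) + (β * p ^ (i + (j + 1))) • z := by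
        rw [← mul_smul, ← add_smul, hαβ, one_smul]
      rw [hz']
      have hle : mulSub M (p ^ (i + (j + 1))) ≤ mulSub M (p ^ (i + 1)) :=
        mulSub_le_of_dvd (pow_dvd_pow p (by omega))
      refine Submodule.add_mem _ (Submodule.smul_mem _ _ (hle hz)) ?_
      exact smul_mem_mulSub_of_dvd (Dvd.dvd.mul_left (pow_dvd_pow p (by omega)) β) z

/-- The "projector" `∑ T ^ i γ ^ (m - 1 - i)`. -/
noncomputable def proj (T : Module.End ℤ M) (γ : ℤ) (m : ℕ) : Module.End ℤ M :=
  ∑ i ∈ range m, T ^ i * (γ : Module.End ℤ M) ^ (m - 1 - i)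

lemma intCast_end_apply (γ : ℤ) (z : M) : (γ : Module.End ℤ M) z = γ • z := by
  have : (γ : Module.End ℤ M) = γ • (1 : Module.End ℤ M) := by simp
  rw [this]
  simp

lemma intCast_pow_end_apply (γ : ℤ) (k : ℕ) (z : M) :
    ((γ : Module.End ℤ M) ^ k) z = (γ ^ k) • z := by
  rw [← Int.cast_pow, intCast_end_apply]

lemma proj_apply (T : Module.End ℤ M) (γ : ℤ) (m : ℕ) (z : M) :
    proj T γ m z = ∑ i ∈ range m, (γ ^ (m - 1 - i)) • (T ^ i) z := by
  unfold proj
  rw [LinearMap.sum_apply]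
  refine Finset.sum_congr rfl fun i _ => ?_
  rw [Module.End.mul_apply, intCast_pow_end_apply, map_smul]

lemma sub_mul_proj (T : Module.End ℤ M) (γ : ℤ) (m : ℕ) :
    (T - (γ : Module.End ℤ M)) * proj T γ m = T ^ m - (γ : Module.End ℤ M) ^ m :=
  Commute.mul_geom_sum₂ (Int.commute_cast T γ) m

lemma T_proj_apply (T : Module.End ℤ M) (γ : ℤ) (m : ℕ) (hT : T ^ m = 1) (z : M) :
    T (proj T γ m z) = γ • proj T γ m z + (1 - γ ^ m) • z := by
  have h := congrArg (fun f : Module.End ℤ M => f z) (sub_mul_proj T γ m)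
  simp only [Module.End.mul_apply, LinearMap.sub_apply, hT, Module.End.one_apply,
    intCast_end_apply, intCast_pow_end_apply] at h
  rw [sub_smul, one_smul, ← h]
  abel

lemma proj_comm (T : Module.End ℤ M) (γ : ℤ) (m : ℕ) : Commute (proj T γ m) T := by
  unfold proj
  refine Commute.sum_left _ _ _ fun i _ => ?_
  exact ((Commute.refl T).pow_left i).mul_left ((Int.cast_commute γ T).pow_left _)

lemma proj_pow_apply (T : Module.End ℤ M) (γ : ℤ) (m i : ℕ) (z : M) :
    proj T γ m ((T ^ i) z) = (T ^ i) (proj T γ m z) := by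
  have h := ((proj_comm T γ m).pow_right i).eq
  have h2 := congrArg (fun f : Module.End ℤ M => f z) h
  simpa only [Module.End.mul_apply] using h2

lemma proj_pow_mem (T : Module.End ℤ M) (γ : ℤ) (m : ℕ) (hT : T ^ m = 1) {q : ℤ}
    (hq : q ∣ 1 - γ ^ m) (u₀ : M) (i : ℕ) :
    ∃ (a : ℤ) (s : M), (T ^ i) (proj T γ m u₀) = a • proj T γ m u₀ + q • s := by
  induction i with
  | zero => exact ⟨1, 0, by simp⟩
  | succ i ih =>
    obtain ⟨a, s, h⟩ := ih
    obtain ⟨k, hk⟩ := hq
    refine ⟨a * γ, (a * k) • u₀ + T s, ?_⟩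
    rw [pow_succ', Module.End.mul_apply, h, map_add, map_smul, map_smul, T_proj_apply T γ m hT, hk]
    simp only [smul_add, ← mul_smul]
    rw [add_assoc]
    congr 2
    congr 1
    ring

lemma proj_span (T : Module.End ℤ M) (γ : ℤ) (m : ℕ) (hT : T ^ m = 1) {q : ℤ}
    (hq : q ∣ 1 - γ ^ m) (u₀ : M) (z : M)
    (hz : z ∈ Submodule.span ℤ (Set.range fun i : ℕ => (T ^ i) u₀)) :
    ∃ (a : ℤ) (s : M), proj T γ m z = a • proj T γ m u₀ + q • s := by
  induction hz using Submodule.span_induction with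
  | mem z hz =>
    obtain ⟨i, rfl⟩ := hz
    simp only [proj_pow_apply]
    exact proj_pow_mem T γ m hT hq u₀ i
  | zero => exact ⟨0, 0, by simp⟩
  | add z w _ _ hz hw =>
    obtain ⟨a, s, h1⟩ := hz
    obtain ⟨b, t, h2⟩ := hw
    refine ⟨a + b, s + t, ?_⟩
    rw [map_add, h1, h2, add_smul, smul_add]
    abel
  | smul n z _ hz =>
    obtain ⟨a, s, h1⟩ := hz
    refine ⟨n * a, n • s, ?_⟩
    rw [map_smul, h1, smul_add, mul_smul, smul_comm n q s]

lemma pow_apply_sub_mem (T : Module.End ℤ M) (γ q : ℤ) (z : M)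
    (hz : T z - γ • z ∈ mulSub M q) (i : ℕ) : (T ^ i) z - γ ^ i • z ∈ mulSub M q := by
  induction i with
  | zero => simp
  | succ i ih =>
    have h : (T ^ (i + 1)) z - γ ^ (i + 1) • z
        = (T ^ i) (T z - γ • z) + γ • ((T ^ i) z - γ ^ i • z) := by
      rw [pow_succ, Module.End.mul_apply, map_sub, map_smul, smul_sub, ← mul_smul, pow_succ']
      abel
    rw [h]
    exact Submodule.add_mem _ (map_mem_mulSub _ hz) (Submodule.smul_mem _ _ ih)

lemma proj_apply_sub_mem (T : Module.End ℤ M) (γ q : ℤ) (m : ℕ) (z : M)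
    (hz : T z - γ • z ∈ mulSub M q) :
    proj T γ m z - ((m : ℤ) * γ ^ (m - 1)) • z ∈ mulSub M q := by
  have h : proj T γ m z - ((m : ℤ) * γ ^ (m - 1)) • z
      = ∑ i ∈ range m, γ ^ (m - 1 - i) • ((T ^ i) z - γ ^ i • z) := by
    rw [proj_apply]
    simp only [smul_sub, Finset.sum_sub_distrib]
    congr 1
    have : ∀ i ∈ range m, γ ^ (m - 1 - i) • γ ^ i • z = γ ^ (m - 1) • z := by
      intro i hi
      rw [← mul_smul, ← pow_add]
      congr 2
      have := Finset.mem_range.1 hi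
      omega
    rw [Finset.sum_congr rfl this, Finset.sum_const, card_range, mul_smul, natCast_zsmul]
  rw [h]
  exact Submodule.sum_mem _ fun i _ => Submodule.smul_mem _ _ (pow_apply_sub_mem T γ q z hz i)

/-- **Main abstract lemma.**  Two eigenvectors modulo `p` with the same eigenvalue are dependent
modulo `p`. -/
theorem eigen_dependent (htf : ∀ (n : ℤ) (z : M), n ≠ 0 → n • z = 0 → z = 0)
    {p : ℕ} (hp : p.Prime) (T : Module.End ℤ M) (hT : T ^ (p - 1) = 1) (c : ℕ) (hc : ¬ p ∣ c)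
    (u₀ : M)
    (hu₀ : ∀ x : M, ∃ n : ℤ, n ≠ 0 ∧
      n • x ∈ Submodule.span ℤ (Set.range fun i : ℕ => (T ^ i) u₀))
    (x y : M) (hx : T x - (c : ℤ) • x ∈ mulSub M p) (hy : T y - (c : ℤ) • y ∈ mulSub M p) :
    ∃ a b : ℤ, ¬ ((p : ℤ) ∣ a ∧ (p : ℤ) ∣ b) ∧ a • x + b • y ∈ mulSub M p := by
  have hpZ : Prime (p : ℤ) := Nat.prime_iff_prime_int.1 hp
  obtain ⟨n₁, hn₁, hx₁⟩ := hu₀ x
  obtain ⟨n₂, hn₂, hy₂⟩ := hu₀ y
  set S := Submodule.span ℤ (Set.range fun i : ℕ => (T ^ i) u₀) with hS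
  set n : ℤ := n₁ * n₂ with hn
  have hn0 : n ≠ 0 := mul_ne_zero hn₁ hn₂
  have hxS : n • x ∈ S := by
    rw [hn, mul_comm, mul_smul]
    exact S.smul_mem _ hx₁
  have hyS : n • y ∈ S := by
    rw [hn, mul_smul]
    exact S.smul_mem _ hy₂
  -- choose `j`
  obtain ⟨j, hj⟩ : ∃ j : ℕ, ¬ (p : ℤ) ^ j ∣ n := by
    refine ⟨n.natAbs, fun h => ?_⟩
    have h1 := Int.natAbs_dvd_natAbs.2 h
    rw [Int.natAbs_pow, Int.natAbs_natCast] at h1
    have h2 := Nat.le_of_dvd (Int.natAbs_pos.2 hn0) h1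
    exact absurd (Nat.lt_pow_self hp.one_lt) (not_lt.2 h2)
  set k : ℕ := j + j with hk
  set γ : ℤ := (c : ℤ) ^ (p ^ k) with hγ
  have hγc : (p : ℤ) ∣ γ - c := by
    have : Fact p.Prime := ⟨hp⟩
    rw [← ZMod.intCast_zmod_eq_zero_iff_dvd]
    push_cast [hγ]
    rw [ZMod.pow_card_pow, sub_self]
  have hγ1 : (p : ℤ) ^ k ∣ 1 - γ ^ (p - 1) := by
    have hcop : Nat.Coprime c (p ^ (k + 1)) :=
      Nat.Coprime.pow_right _ ((Nat.Prime.coprime_iff_not_dvd hp).2 hc).symm
    have h1 := Nat.ModEq.pow_totient hcop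
    rw [Nat.totient_prime_pow_succ hp] at h1
    have h2 : ((p ^ (k + 1) : ℕ) : ℤ) ∣ ((1 : ℕ) : ℤ) - ((c ^ (p ^ k * (p - 1)) : ℕ) : ℤ) :=
      (Nat.modEq_iff_dvd.1 h1)
    have h3 : (p : ℤ) ^ k ∣ ((p ^ (k + 1) : ℕ) : ℤ) := by
      push_cast
      exact pow_dvd_pow _ (Nat.le_succ k)
    have h4 := h3.trans h2
    rw [hγ, ← pow_mul]
    push_cast at h4
    exact h4
  have hpγ : ¬ (p : ℤ) ∣ γ := by
    intro h
    have := hpZ.dvd_of_dvd_pow h
    exact hc (Int.natCast_dvd_natCast.1 this)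
  set μ : ℤ := ((p - 1 : ℕ) : ℤ) * γ ^ (p - 1 - 1) with hμ
  have hpμ : ¬ (p : ℤ) ∣ μ := by
    intro h
    rcases hpZ.dvd_or_dvd h with h | h
    · have h1 := Int.natCast_dvd_natCast.1 h
      have h2 := Nat.le_of_dvd (by have := hp.two_le; omega) h1
      have := hp.two_le
      omega
    · exact hpγ (hpZ.dvd_of_dvd_pow h)
  have heig : ∀ z : M, T z - (c : ℤ) • z ∈ mulSub M p → T z - γ • z ∈ mulSub M p := by
    intro z hz
    have : T z - γ • z = (T z - (c : ℤ) • z) - (γ - c) • z := by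
      rw [sub_smul]; abel
    rw [this]
    exact Submodule.sub_mem _ hz (smul_mem_mulSub_of_dvd hγc z)
  -- an eigenvector killed by the projector modulo `p` is divisible by `p`
  have hkey : ∀ z : M, T z - γ • z ∈ mulSub M p → proj T γ (p - 1) z ∈ mulSub M ((p : ℤ) ^ (0 + 1)) →
      z ∈ mulSub M p := by
    intro z hz hz2
    have h1 := proj_apply_sub_mem T γ p (p - 1) z hz
    have h2 : μ • z ∈ mulSub M ((p : ℤ) ^ (0 + 1)) := by
      have : μ • z = proj T γ (p - 1) z - (proj T γ (p - 1) z - μ • z) := by abel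
      rw [this]
      refine Submodule.sub_mem _ hz2 ?_
      simpa using h1
    have h3 := mem_mulSub_of_smul_mem htf hpZ 1 0 μ z h2 (by simpa using hpμ)
    simpa using h3
  obtain ⟨a, s, ha⟩ := proj_span T γ (p - 1) hT hγ1 u₀ _ hxS
  obtain ⟨b, t, hb⟩ := proj_span T γ (p - 1) hT hγ1 u₀ _ hyS
  by_cases hja : (p : ℤ) ^ j ∣ a
  · -- then `x` is divisible by `p`
    refine ⟨1, 0, fun h => ?_, ?_⟩
    · exact hpZ.not_dvd_one h.1
    · have h1 : n • proj T γ (p - 1) x ∈ mulSub M ((p : ℤ) ^ (0 + j)) := by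
        rw [← map_smul, ha, zero_add]
        refine Submodule.add_mem _ (smul_mem_mulSub_of_dvd hja _) ?_
        exact smul_mem_mulSub_of_dvd (pow_dvd_pow _ (by omega)) _
      have h2 := mem_mulSub_of_smul_mem htf hpZ j 0 n _ h1 hj
      have h3 := hkey x (heig x hx) h2
      simpa using h3
  · have hgpos : 0 < Int.gcd a b := by
      apply Int.gcd_pos_of_ne_zero_left
      rintro rfl
      exact hja (dvd_zero _)
    obtain ⟨a', b', hcop, ha', hb'⟩ := Int.exists_gcd_one hgpos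
    set D : ℤ := (Int.gcd a b : ℤ) with hD
    have hjD : ¬ (p : ℤ) ^ j ∣ D := by
      intro h
      apply hja
      rw [ha']
      exact Dvd.dvd.mul_left h a'
    refine ⟨b', -a', fun h => ?_, ?_⟩
    · have h1 : (p : ℤ) ∣ (Int.gcd a' b' : ℤ) := Int.dvd_coe_gcd ((dvd_neg).1 h.2) h.1
      rw [hcop] at h1
      exact hpZ.not_dvd_one (by simpa using h1)
    · set z : M := b' • x + (-a') • y with hz
      have hzeig : T z - γ • z ∈ mulSub M p := by
        have : T z - γ • z = b' • (T x - γ • x) + (-a') • (T y - γ • y) := by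
          rw [hz, map_add, map_smul, map_smul, smul_add, smul_sub, smul_sub,
            smul_comm γ b' x, smul_comm γ (-a') y]
          abel
        rw [this]
        exact Submodule.add_mem _ (Submodule.smul_mem _ _ (heig x hx))
          (Submodule.smul_mem _ _ (heig y hy))
      apply hkey z hzeig
      have h1 : n • (D • proj T γ (p - 1) z) ∈ mulSub M ((p : ℤ) ^ (j + j)) := by
        have : n • (D • proj T γ (p - 1) z) = (p : ℤ) ^ k • (b • s - a • t) := by
          have e1 : n • (D • proj T γ (p - 1) z)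
              = b • proj T γ (p - 1) (n • x) - a • proj T γ (p - 1) (n • y) := by
            rw [hz]
            simp only [map_add, map_smul, smul_add, ← mul_smul]
            rw [sub_eq_add_neg, ← neg_smul]
            congr 2
            · conv_rhs => rw [hb']
              ring
            · conv_rhs => rw [ha']
              ring
          rw [e1, ha, hb]
          simp only [smul_add, smul_sub, ← mul_smul]
          rw [mul_comm b a, mul_comm b, mul_comm a ((p : ℤ) ^ k)]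
          abel
        rw [this]
        exact smul_mem_mulSub _ _
      have h2 := mem_mulSub_of_smul_mem htf hpZ j j n _ h1 hj
      have h3 : D • proj T γ (p - 1) z ∈ mulSub M ((p : ℤ) ^ (0 + j)) :=
        mulSub_le_of_dvd (pow_dvd_pow _ (by omega)) h2
      exact mem_mulSub_of_smul_mem htf hpZ j 0 D _ h3 hjD

end Abstract

end Fermat.Agent.S14.Units
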