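import Mathlib

/-!
# S14, block U: a Minkowski unit

For a Galois number field `K/ℚ` there is a unit `u0` whose conjugates generate a subgroup of
finite index in the unit group.
-/

set_option autoImplicit false

namespace Fermat.Agent.S14.Units.MinkowskiUnit

open NumberField NumberField.Units NumberField.Units.dirichletUnitTheorem NumberField.InfinitePlace
open Module Finset Matrix

variable (K : Type*) [Field K] [NumberField K]

set_option backward.isDefEq.respectTransparency.types false in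
/-- A family of units indexed by the places `≠ w₀`, whose member at `w` has negative logarithm at
every place different from `w`, is linearly independent in the log space. -/
theorem linearIndependent_of_neg (U : {w : InfinitePlace K // w ≠ w₀} → (𝓞 K)ˣ)
    (hU : ∀ w : {w : InfinitePlace K // w ≠ w₀}, ∀ w' : InfinitePlace K, w' ≠ w.1 →
      Real.log (w' ((U w : 𝓞 K) : K)) < 0) :
    LinearIndependent ℝ (fun w => logEmbedding K (Additive.ofMul (U w))) := by
  classical
  let B := Pi.basisFun ℝ {w : InfinitePlace K // w ≠ w₀}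
  let v := fun w : { w : InfinitePlace K // w ≠ w₀ } ↦ logEmbedding K (Additive.ofMul (U w))
  suffices B.det v ≠ 0 by
    rw [← isUnit_iff_ne_zero, ← Basis.is_basis_iff_det] at this
    exact this.1
  rw [Basis.det_apply]
  refine det_ne_zero_of_sum_col_lt_diag (fun w ↦ ?_)
  simp_rw [Real.norm_eq_abs, B, Basis.coePiBasisFun.toMatrix_eq_transpose, Matrix.transpose_apply]
  rw [← sub_pos, sum_congr rfl (fun x hx ↦ abs_of_neg ?_), sum_neg_distrib, sub_neg_eq_add,
    sum_erase_eq_sub (mem_univ _), ← add_comm_sub]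
  · refine add_pos_of_nonneg_of_pos ?_ ?_
    · rw [sub_nonneg]
      exact le_abs_self _
    · rw [sum_logEmbedding_component (U w)]
      refine mul_pos_of_neg_of_neg ?_ (hU w _ w.prop.symm)
      rw [mult]; split_ifs <;> norm_num
  · refine mul_neg_of_pos_of_neg ?_ (hU w x ?_)
    · rw [mult]; split_ifs <;> norm_num
    · exact Subtype.ext_iff.not.mp (ne_of_mem_erase hx)

/-- The action of an automorphism on units. -/
noncomputable def conj (σ : K ≃ₐ[ℚ] K) : (𝓞 K)ˣ →* (𝓞 K)ˣ :=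
  Units.map (RingOfIntegers.mapRingHom (σ : K →+* K) : 𝓞 K →* 𝓞 K)

theorem coe_conj (σ : K ≃ₐ[ℚ] K) (u : (𝓞 K)ˣ) :
    ((conj K σ u : 𝓞 K) : K) = σ ((u : 𝓞 K) : K) := rfl

theorem exists_finiteIndex [IsGalois ℚ K] :
    ∃ u0 : (𝓞 K)ˣ, (Subgroup.closure (Set.range fun σ : K ≃ₐ[ℚ] K => conj K σ u0)).FiniteIndex := by
  classical
  obtain ⟨u0, hu0⟩ := exists_unit K (w₀ : InfinitePlace K)
  refine ⟨u0, ?_⟩
  have hσ : ∀ w : InfinitePlace K, ∃ σ : K ≃ₐ[ℚ] K, σ • (w₀ : InfinitePlace K) = w := fun w =>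
    exists_smul_eq_of_comap_eq (Subsingleton.elim _ _)
  choose s hs using hσ
  let U : {w : InfinitePlace K // w ≠ w₀} → (𝓞 K)ˣ := fun w => conj K (s w.1) u0
  have hU : ∀ w : {w : InfinitePlace K // w ≠ w₀}, ∀ w' : InfinitePlace K, w' ≠ w.1 →
      Real.log (w' ((U w : 𝓞 K) : K)) < 0 := by
    intro w w' hw'
    have h1 : w' ((U w : 𝓞 K) : K) = ((s w.1)⁻¹ • w') ((u0 : 𝓞 K) : K) := by
      rw [InfinitePlace.smul_apply]
      rfl
    rw [h1]
    apply hu0
    intro h
    apply hw'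
    have h2 : s w.1 • ((s w.1)⁻¹ • w') = s w.1 • (w₀ : InfinitePlace K) := congrArg _ h
    rw [smul_inv_smul, hs] at h2
    exact h2
  have hli := linearIndependent_of_neg K U hU
  have hmax : IsMaxRank (fun i => U (equivFinRank K i)) :=
    (linearIndependent_equiv (equivFinRank K)).mpr hli
  have hfi := isMaxRank_iff_closure_finiteIndex.mp hmax
  refine Subgroup.finiteIndex_of_le (H := Subgroup.closure (Set.range fun i => U (equivFinRank K i))) ?_
  apply Subgroup.closure_mono
  rintro _ ⟨i, rfl⟩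
  exact ⟨s (equivFinRank K i).1, rfl⟩

end Fermat.Agent.S14.Units.MinkowskiUnit

namespace Fermat.Agent.S14.Units

open NumberField

/-- **Minkowski unit.** -/
theorem exists_minkowski_unit (K : Type*) [Field K] [NumberField K] [IsGalois ℚ K] :
    ∃ u0 : (𝓞 K)ˣ, ∀ x : (𝓞 K)ˣ, ∃ n : ℕ, 0 < n ∧ ∃ c : (K ≃ₐ[ℚ] K) → ℤ,
      ((x : 𝓞 K) : K) ^ n = ∏ σ : K ≃ₐ[ℚ] K, (σ ((u0 : 𝓞 K) : K)) ^ (c σ) := by
  classical
  obtain ⟨u0, hfi⟩ := MinkowskiUnit.exists_finiteIndex K
  refine ⟨u0, fun x => ?_⟩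
  set H := Subgroup.closure (Set.range fun σ : K ≃ₐ[ℚ] K => MinkowskiUnit.conj K σ u0) with hH
  have hn : 0 < H.index := Nat.pos_of_ne_zero hfi.index_ne_zero
  refine ⟨H.index, hn, ?_⟩
  have hx : x ^ H.index ∈ H := Subgroup.pow_index_mem H x
  rw [hH, Subgroup.mem_closure_range_iff_of_fintype] at hx
  obtain ⟨c, hc⟩ := hx
  refine ⟨c, ?_⟩
  have h1 := congrArg (fun u : (𝓞 K)ˣ => ((Units.map (algebraMap (𝓞 K) K : 𝓞 K →* K) u : Kˣ) : K)) hc
  simp only [map_pow, map_prod, map_zpow, Units.val_pow_eq_pow_val, Units.coe_prod,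
    Units.val_zpow_eq_zpow_val] at h1
  exact h1

end Fermat.Agent.S14.Units
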